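/-
S44, block X, COVER, node RAT (second architect helper93).  Calculus of the congruences
`Deep G p n f : (f - 1) / p ^ n ∈ G` in an abstract valued field.
-/
import Fermat.Agent.S44.X.Cover.Nodes

set_option autoImplicit false

namespace Fermat.Agent.S44.X.Cover.Rat

variable {F : Type*} [Field F] {G : ValuationSubring F} {p n : ℕ} {f g : F}

theorem deep_iff (hp0 : (p : F) ≠ 0) : Deep G p n f ↔ ∃ y ∈ G, f = 1 + (p : F) ^ n * y := by
  have hpn : (p : F) ^ n ≠ 0 := pow_ne_zero n hp0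
  constructor
  · intro h
    refine ⟨_, h, ?_⟩
    field_simp
    ring
  · rintro ⟨y, hy, rfl⟩
    have e : (1 + (p : F) ^ n * y - 1) / (p : F) ^ n = y := by
      field_simp
      ring
    show (1 + (p : F) ^ n * y - 1) / (p : F) ^ n ∈ G
    rw [e]
    exact hy

theorem deep_one : Deep G p n (1 : F) := by
  show (1 - 1 : F) / (p : F) ^ n ∈ G
  rw [sub_self, zero_div]
  exact G.zero_mem

/-- (`f g - 1 = (f - 1) + (g - 1) + (f - 1)(g - 1)`.) -/
theorem Deep.mul (hp0 : (p : F) ≠ 0) (hpG : (p : F) ∈ G) (hf : Deep G p n f) (hg : Deep G p n g) :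
    Deep G p n (f * g) := by
  obtain ⟨y, hy, rfl⟩ := (deep_iff hp0).1 hf
  obtain ⟨z, hz, rfl⟩ := (deep_iff hp0).1 hg
  refine (deep_iff hp0).2 ⟨y + z + (p : F) ^ n * (y * z),
    G.add_mem _ _ (G.add_mem _ _ hy hz) (G.mul_mem _ _ (pow_mem hpG n) (G.mul_mem _ _ hy hz)), ?_⟩
  ring

theorem Deep.pow (hp0 : (p : F) ≠ 0) (hpG : (p : F) ∈ G) (hf : Deep G p n f) (k : ℕ) :
    Deep G p n (f ^ k) := by
  induction k with
  | zero => rw [pow_zero]; exact deep_one
  | succ k ih => rw [pow_succ]; exact Deep.mul hp0 hpG ih hf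

theorem Deep.mono (hp0 : (p : F) ≠ 0) (hpG : (p : F) ∈ G) {m : ℕ} (hmn : m ≤ n)
    (hf : Deep G p n f) : Deep G p m f := by
  obtain ⟨y, hy, rfl⟩ := (deep_iff hp0).1 hf
  obtain ⟨d, rfl⟩ := Nat.exists_eq_add_of_le hmn
  refine (deep_iff hp0).2 ⟨(p : F) ^ d * y, G.mul_mem _ _ (pow_mem hpG d) hy, ?_⟩
  rw [pow_add]
  ring

/-- (`f = 1 + p ^ n y` has valuation one.) -/
theorem Deep.val_eq_one (hp0 : (p : F) ≠ 0) (hpG : G.valuation (p : F) < 1) (hn : 0 < n)
    (hf : Deep G p n f) : G.valuation f = 1 := by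
  obtain ⟨y, hy, rfl⟩ := (deep_iff hp0).1 hf
  have h1 : G.valuation ((p : F) ^ n * y) < 1 := by
    rw [map_mul, map_pow]
    have h2 : G.valuation y ≤ 1 := (G.valuation_le_one_iff y).2 hy
    have h3 : G.valuation (p : F) ^ n < 1 := pow_lt_one₀ zero_le hpG hn.ne'
    calc G.valuation (p : F) ^ n * G.valuation y ≤ G.valuation (p : F) ^ n * 1 :=
          mul_le_mul_right h2 _
      _ = G.valuation (p : F) ^ n := mul_one _
      _ < 1 := h3
  have h4 := Valuation.map_add_eq_of_lt_left G.valuation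
    (x := 1) (y := (p : F) ^ n * y) (by rw [map_one]; exact h1)
  rw [h4, map_one]

theorem Deep.ne_zero (hp0 : (p : F) ≠ 0) (hpG : G.valuation (p : F) < 1) (hn : 0 < n)
    (hf : Deep G p n f) : f ≠ 0 := by
  intro h
  have h1 := Deep.val_eq_one hp0 hpG hn hf
  rw [h, map_zero] at h1
  exact zero_ne_one h1

/-- (`f⁻¹ - 1 = - (f - 1) f⁻¹` and `f⁻¹ ∈ G` by `Deep.val_eq_one`.) -/
theorem Deep.inv (hp0 : (p : F) ≠ 0) (hpG : G.valuation (p : F) < 1) (hn : 0 < n)
    (hf : Deep G p n f) : Deep G p n f⁻¹ := by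
  have hv := Deep.val_eq_one hp0 hpG hn hf
  have hf0 := Deep.ne_zero hp0 hpG hn hf
  have hinv : f⁻¹ ∈ G := by
    rw [← G.valuation_le_one_iff, map_inv₀, hv, inv_one]
  have e : (f⁻¹ - 1) / (p : F) ^ n = -((f - 1) / (p : F) ^ n * f⁻¹) := by
    have hpn : (p : F) ^ n ≠ 0 := pow_ne_zero n hp0
    field_simp
    ring
  show (f⁻¹ - 1) / (p : F) ^ n ∈ G
  rw [e]
  exact G.neg_mem _ (G.mul_mem _ _ hf hinv)

theorem Deep.div (hp0 : (p : F) ≠ 0) (hpG : G.valuation (p : F) < 1) (hn : 0 < n)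
    (hf : Deep G p n f) (hg : Deep G p n g) : Deep G p n (f / g) := by
  rw [div_eq_mul_inv]
  exact Deep.mul hp0 ((G.valuation_le_one_iff _).1 hpG.le) hf (Deep.inv hp0 hpG hn hg)

/-- an automorphism preserving `G` preserves the congruences (`map_natCast`). -/
theorem Deep.map (φ : F ≃+* F) (hφ : ∀ z, φ z ∈ G ↔ z ∈ G) (hf : Deep G p n f) :
    Deep G p n (φ f) := by
  have e : (φ f - 1) / (p : F) ^ n = φ ((f - 1) / (p : F) ^ n) := by
    rw [map_div₀, map_sub, map_one, map_pow, map_natCast]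
  show (φ f - 1) / (p : F) ^ n ∈ G
  rw [e]
  exact (hφ _).2 hf

end Fermat.Agent.S44.X.Cover.Rat
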