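/-
S44, block X, COVER, node RAT (second architect helper93).  Roots of unity and deep congruences.
-/
import Fermat.Agent.S44.X.Cover.Rat.DeepCalc
import Fermat.Agent.S44.X.Cover.Sheet.Root

set_option autoImplicit false

namespace Fermat.Agent.S44.X.Cover.Rat

variable {F : Type*} [Field F] {G : ValuationSubring F} {p : ℕ}

/-- a root of unity is a unit of every valuation ring -/
theorem zeta_pow_inv_mem {ζ : F} (hp : 0 < p) (hζ : ζ ^ p = 1) (c : ℕ) : (ζ ^ c)⁻¹ ∈ G := by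
  have h : G.valuation ζ ^ p = 1 := by rw [← map_pow, hζ, map_one]
  have h1 : G.valuation ζ = 1 := (pow_eq_one_iff.1 h).resolve_right hp.ne'
  rw [← G.valuation_le_one_iff, map_inv₀, map_pow, h1, one_pow, inv_one]

/-- **Root lemma**: `z ^ p ≡ 1 mod p ^ 2` implies `z ≡ ζ ^ c mod p`.
(`Sheet.deep_root G hp hζ 1 z` gives `(z - ζ ^ c) / p ∈ G`; multiply by `(ζ ^ c)⁻¹ ∈ G`.) -/
theorem exists_deep_div_zeta (hp : p.Prime) {ζ : F} (hζ : IsPrimitiveRoot ζ p) {z : F}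
    (h : Deep G p 2 (z ^ p)) : ∃ c : ℕ, Deep G p 1 (z / ζ ^ c) := by
  obtain ⟨c, -, hc⟩ := Sheet.deep_root G hp hζ 1 z h
  refine ⟨c, ?_⟩
  have hz : ζ ^ c ≠ 0 := pow_ne_zero c (hζ.ne_zero hp.ne_zero)
  have e : (z / ζ ^ c - 1) / (p : F) ^ 1 = (z - ζ ^ c) / (p : F) ^ 1 * (ζ ^ c)⁻¹ := by
    field_simp
  unfold Deep
  rw [e]
  exact mul_mem hc (zeta_pow_inv_mem hp.pos hζ.pow_eq_one c)

/-- `ζ ^ k ≡ 1 mod p` only if `p ∣ k` (`p` odd).
(Otherwise `Sheet.val_zeta_sub G hp hζ (i := k) (j := 0)` gives `v(ζ ^ k - 1) ^ (p - 1) = v(p)`,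
while `v(ζ ^ k - 1) ≤ v(p) < 1` gives `v(ζ ^ k - 1) ^ (p - 1) ≤ v(p) ^ (p - 1) < v(p)` since
`p - 1 ≥ 2` and `v(p) ≠ 0`.) -/
theorem dvd_of_deep_zeta_pow (hp : p.Prime) (hp2 : p ≠ 2) (hpG : G.valuation (p : F) < 1) {ζ : F}
    (hζ : IsPrimitiveRoot ζ p) {k : ℕ} (h : Deep G p 1 (ζ ^ k)) : p ∣ k := by
  by_contra hk
  have : NeZero p := ⟨hp.ne_zero⟩
  have hp0 : (p : F) ≠ 0 := (hζ.neZero').out
  have hvp : G.valuation (p : F) ≠ 0 := (Valuation.ne_zero_iff _).2 hp0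
  have hvpos : 0 < G.valuation (p : F) := zero_lt_iff.2 hvp
  have hij : ¬ k ≡ 0 [MOD p] := fun h' => hk ((Nat.modEq_zero_iff_dvd).1 h')
  have h1 := Sheet.val_zeta_sub G hp hζ hij
  rw [pow_zero] at h1
  have h2 : G.valuation (ζ ^ k - 1) ≤ G.valuation (p : F) := by
    have h3 : G.valuation ((ζ ^ k - 1) / (p : F) ^ 1) ≤ 1 := (G.valuation_le_one_iff _).2 h
    rw [pow_one, map_div₀, div_le_one₀ hvpos] at h3
    exact h3
  have hp3 : 2 ≤ p - 1 := by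
    have := hp.two_le
    omega
  have h4 : G.valuation (ζ ^ k - 1) ^ (p - 1) ≤ G.valuation (p : F) ^ (p - 1) :=
    pow_le_pow_left₀ zero_le h2 _
  have h5 : G.valuation (p : F) ^ (p - 1) ≤ G.valuation (p : F) ^ 2 :=
    pow_le_pow_of_le_one zero_le hpG.le hp3
  have h6 : G.valuation (p : F) ^ 2 < G.valuation (p : F) := by
    rw [sq]
    calc G.valuation (p : F) * G.valuation (p : F) < 1 * G.valuation (p : F) :=
          mul_lt_mul_of_pos_right hpG hvpos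
      _ = _ := one_mul _
  rw [h1] at h4
  exact absurd (h4.trans_lt (h5.trans_lt h6)) (lt_irrefl _)

end Fermat.Agent.S44.X.Cover.Rat
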