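/-
S44, block X, COVER, node RAT (second architect helper93).  Leading coefficients of `q`-expansions and
the multiplicative Hecke operator.
-/
import Fermat.Agent.S44.X.Cover.Field.Series
import Fermat.Agent.GAL.E.HeckeBasic

set_option autoImplicit false

noncomputable section

namespace Fermat.Agent.S44.X.Cover.Rat

open ModularCurve AlgebraicCurve Fermat.Agent.S24 Fermat.Agent.S24.B Fermat.Agent.GAL
  Fermat.Agent.GAL.E

/-- `q ↦ q ^ m` does not change the leading coefficient.
(`f = 0` trivial; otherwise `qExpand` multiplies the exponents by `m`: use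
`LaurentSeries.single_order_mul_powerSeriesPart`, `qExpand_single`, or compute
`(qExpand K m f).order = m * f.order` and the coefficient there; see `GAL/E/Frob.lean`,
`S24/B/Laurent.lean` for the API of `qExpand`.) -/
theorem leadingCoeff_qExpand (m : ℕ) [NeZero m] (f : LaurentSeries Kbar) :
    (qExpand Kbar m f).leadingCoeff = f.leadingCoeff := by
  rw [HahnSeries.leadingCoeff_eq, HahnSeries.leadingCoeff_eq, order_qExpand, qExpand_coeff_mul]

/-- `q ↦ z q` multiplies the leading coefficient by `z ^ order`.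
(`twist z f` has the coefficients `z ^ k * f.coeff k`: see `S24/B/Laurent.lean`.) -/
theorem leadingCoeff_twist (z : Kbarˣ) (f : LaurentSeries Kbar) :
    (twist z f).leadingCoeff = ((z ^ f.order : Kbarˣ) : Kbar) * f.leadingCoeff := by
  rw [HahnSeries.leadingCoeff_eq, HahnSeries.leadingCoeff_eq, order_twist, twist_coeff]

/-- `∏_{b < ℓ} ζ ^ (b k) = 1` for `ℓ` odd, `ζ ^ ℓ = 1`.
(`∏ = ζ ^ (k * ∑ b) = ζ ^ (k * ℓ (ℓ - 1) / 2)`, `Finset.sum_range_id_mul_two`, `2 ∣ ℓ - 1`.) -/
theorem prod_zeta_zpow_eq_one {ℓ : ℕ} (hℓ : Odd ℓ) (z : Kbarˣ) (hz : z ^ ℓ = 1) (k : ℤ) :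
    ∏ b ∈ Finset.range ℓ, ((z ^ b) ^ k : Kbarˣ) = 1 := by
  obtain ⟨m, hm⟩ := hℓ
  have hsum : ∑ b ∈ Finset.range ℓ, b = ℓ * m := by
    have h := Finset.sum_range_id_mul_two ℓ
    have h1 : ℓ - 1 = m * 2 := by omega
    rw [h1, ← mul_assoc] at h
    exact Nat.eq_of_mul_eq_mul_right (by norm_num) h
  rw [Finset.prod_zpow, Finset.prod_pow_eq_pow_sum, hsum, pow_mul, hz, one_pow, one_zpow]

/-- the leading coefficient of a finite product -/
theorem Lead_leadingCoeff_prod {ι : Type*} (s : Finset ι) (f : ι → LaurentSeries Kbar) :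
    (∏ i ∈ s, f i).leadingCoeff = ∏ i ∈ s, (f i).leadingCoeff := by
  classical
  induction s using Finset.induction_on with
  | empty => simp
  | insert a s ha ih =>
    rw [Finset.prod_insert ha, Finset.prod_insert ha, HahnSeries.leadingCoeff_mul, ih]

/-- **The leading coefficient of `T_ℓ u`**, `ℓ` odd.
(Apply `leadingCoeff` to `H.qExpand_T u`; `HahnSeries.leadingCoeff_mul`, its version for finite
products (induction on the `Finset`), the three lemmas above, `isPrimitiveRoot_zetaK`.) -/
theorem leadingCoeff_T {L ℓ : ℕ} [NeZero ℓ] (hℓ : Odd ℓ) (H : HeckeOp L ℓ) (u : FN L) :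
    ((H.T u : FN L) : LaurentSeries Kbar).leadingCoeff =
      (u : LaurentSeries Kbar).leadingCoeff ^ (ℓ + 1) := by
  have h := congrArg HahnSeries.leadingCoeff (H.qExpand_T u)
  rw [leadingCoeff_qExpand, HahnSeries.leadingCoeff_mul, leadingCoeff_qExpand,
    Lead_leadingCoeff_prod] at h
  simp only [leadingCoeff_twist] at h
  rw [Finset.prod_mul_distrib, Finset.prod_const, Finset.card_range] at h
  have h1 : ∏ b ∈ Finset.range ℓ,
      (((zetaK ℓ ^ b) ^ (u : LaurentSeries Kbar).order : Kbarˣ) : Kbar) = 1 := by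
    have h2 := prod_zeta_zpow_eq_one hℓ (zetaK ℓ) (isPrimitiveRoot_zetaK ℓ).pow_eq_one
      (u : LaurentSeries Kbar).order
    have h3 := congrArg (Units.val) h2
    rw [Units.val_one] at h3
    rw [← h3]
    exact (map_prod (Units.coeHom Kbar) _ _).symm
  rw [h, h1, one_mul, pow_succ, mul_comm]

end Fermat.Agent.S44.X.Cover.Rat

end
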