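/-
S44, block X, COVER, node RAT (owner helper43).  LEAF RAT-4: leading coefficients.

`leadingCoeff_gS` : `coeffMap` of an injective ring hom preserves the order (`HahnSeries.leadingCoeff_eq`, `coeffMap_coeff`; the support is the same).
`leadingCoeff_qExpand`, `leadingCoeff_twist` : `S24.B.order_qExpand`, `S24.B.order_twist`, `qExpand_coeff_mul`, `twist_coeff` (`S24/B/Laurent.lean`).
`leadingCoeff_T` : apply `leadingCoeff` to `H.qExpand_T f` (`HahnSeries.leadingCoeff_mul`, induction for the product, or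
`map_prod` for the monoid hom built from `leadingCoeff`): `lc (T f) = lc f * ∏_{b < ℓ} (ζ ^ b) ^ n * lc f`, `n = order f`, and
`∏_{b < ℓ} ζ ^ b = ζ ^ (ℓ (ℓ - 1) / 2) = 1` because `ℓ` is odd (`Finset.prod_pow_eq_pow_sum`, `Finset.sum_range_id_mul_two`, `isPrimitiveRoot_zetaK`).
-/
import Fermat.Agent.S44.X.Cover.Defs
import Fermat.Agent.GAL.E.HeckeBasic

set_option autoImplicit false

noncomputable section

namespace Fermat.Agent.S44.X.Cover

open ModularCurve AlgebraicCurve Fermat.Agent.S24 Fermat.Agent.S24.B Fermat.Agent.GAL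

private theorem rat_order_gS (τ : S44.GQ) (f : LaurentSeries Kbar) :
    (gS τ f).order = f.order := by
  by_cases hf : f = 0
  · subst hf; rw [map_zero]
  · refine order_eq_of_coeff ?_ ?_
    · rw [coeffMap_coeff]
      intro h
      exact HahnSeries.coeff_order_eq_zero.not.2 hf
        ((map_eq_zero (τ : Kbar →+* Kbar)).1 h)
    · intro k hk
      rw [coeffMap_coeff, HahnSeries.coeff_eq_zero_of_lt_order hk, map_zero]

theorem leadingCoeff_gS (τ : S44.GQ) (f : LaurentSeries Kbar) :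
    (gS τ f).leadingCoeff = τ f.leadingCoeff := by
  rw [HahnSeries.leadingCoeff_eq, HahnSeries.leadingCoeff_eq, rat_order_gS, coeffMap_coeff]
  rfl

theorem leadingCoeff_qExpand (e : ℕ) [NeZero e] (f : LaurentSeries Kbar) :
    (qExpand Kbar e f).leadingCoeff = f.leadingCoeff := by
  rw [HahnSeries.leadingCoeff_eq, HahnSeries.leadingCoeff_eq, order_qExpand, qExpand_coeff_mul]

theorem leadingCoeff_twist (ξ : Kbarˣ) (f : LaurentSeries Kbar) :
    (twist ξ f).leadingCoeff = ((ξ ^ f.order : Kbarˣ) : Kbar) * f.leadingCoeff := by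
  rw [HahnSeries.leadingCoeff_eq, HahnSeries.leadingCoeff_eq, order_twist, twist_coeff]

/-- the leading coefficient as a monoid hom -/
private def rat_lcHom : LaurentSeries Kbar →* Kbar where
  toFun := HahnSeries.leadingCoeff
  map_one' := HahnSeries.leadingCoeff_one
  map_mul' := fun x y => HahnSeries.leadingCoeff_mul x y

private theorem rat_prod_zeta {ℓ : ℕ} [NeZero ℓ] (hℓ : Odd ℓ) :
    ∏ b ∈ Finset.range ℓ, zetaK ℓ ^ b = 1 := by
  obtain ⟨k, hk⟩ := hℓ
  have hsum : ∑ b ∈ Finset.range ℓ, b = ℓ * k := by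
    have h := Finset.sum_range_id_mul_two ℓ
    have h2 : ℓ - 1 = k * 2 := by omega
    rw [h2, ← mul_assoc] at h
    exact Nat.eq_of_mul_eq_mul_right (by norm_num) h
  rw [Finset.prod_pow_eq_pow_sum, hsum, pow_mul, (isPrimitiveRoot_zetaK ℓ).pow_eq_one, one_pow]

theorem leadingCoeff_T {L ℓ : ℕ} [NeZero ℓ] (hℓ : Odd ℓ) (H : E.HeckeOp L ℓ) (f : FN L) :
    ((H.T f : FN L) : LaurentSeries Kbar).leadingCoeff =
      (f : LaurentSeries Kbar).leadingCoeff ^ (ℓ + 1) := by
  have h := congrArg HahnSeries.leadingCoeff (H.qExpand_T f)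
  rw [leadingCoeff_qExpand, HahnSeries.leadingCoeff_mul, leadingCoeff_qExpand] at h
  rw [h]
  have h2 : (∏ b ∈ Finset.range ℓ, twist (zetaK ℓ ^ b) (f : LaurentSeries Kbar)).leadingCoeff =
      ∏ b ∈ Finset.range ℓ, (twist (zetaK ℓ ^ b) (f : LaurentSeries Kbar)).leadingCoeff :=
    map_prod rat_lcHom _ _
  rw [h2]
  simp only [leadingCoeff_twist]
  rw [Finset.prod_mul_distrib, Finset.prod_const, Finset.card_range]
  have h3 : ∏ b ∈ Finset.range ℓ,
      (((zetaK ℓ ^ b) ^ (f : LaurentSeries Kbar).order : Kbarˣ) : Kbar) = 1 := by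
    rw [← Units.coe_prod, Finset.prod_zpow, rat_prod_zeta hℓ, one_zpow, Units.val_one]
  rw [h3, one_mul, pow_succ']

end Fermat.Agent.S44.X.Cover

end
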