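/-
S44, block X, COVER, node RAT (owner helper43).  LEAF RAT-5: "the bracket is exactly one".

`eq_of_pow_eq` : `x = 0` iff `y = 0`; otherwise divide both by the constant `lc`: `BAD.Bridge.normalized_root_unique`
(`BAD/Bridge/Root.lean`) applied to `C lc⁻¹ * x`, `C lc⁻¹ * y` (`HahnSeries.leadingCoeff_mul`, leading coefficient of `C c`).
`bracket` : let `X = τ g * h ^ a`, `Y = g ^ m * T h` in `FN L`.
  `X ^ p = Y ^ p`: `g ^ p = T U / U ^ a`; `τ (g ^ p) * (τ U) ^ a = T (τ U)` (`E.HeckeOp.galF_T`, `map_mul`, `map_pow`), `τ U = U ^ m h ^ p`; so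
  `τ(g)^p U^(m a) h^(p a) = T(U)^m T(h)^p = U^(a m) g^(p m) T(h)^p`; cancel `U ^ (a m) ≠ 0`.
  leading coefficients: `lc U = 1` (`hlU`), `lc (T U) = 1`, so `lc(g) ^ p = 1`, so `τ (lc g) = lc(g) ^ m` (`hact`); `lc h = 1`, `lc (T h) = 1` (`leadingCoeff_T`);
  `lc (τ g) = τ (lc g)` (`E.coe_galF`, `leadingCoeff_gS`).  Conclude with `eq_of_pow_eq` and `Subtype.ext`.
-/
import Fermat.Agent.S44.X.Cover.Rat.Lc
import Fermat.Agent.S44.X.Cover.Nodes
import Fermat.Agent.BAD.Bridge.Root

set_option autoImplicit false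

noncomputable section

namespace Fermat.Agent.S44.X.Cover

open ModularCurve AlgebraicCurve Fermat.Agent.S24 Fermat.Agent.S24.B Fermat.Agent.GAL

/-- two series with the same `n`-th power and the same leading coefficient are equal -/
theorem eq_of_pow_eq {n : ℕ} (hn : n ≠ 0) {x y : LaurentSeries Kbar} (h : x ^ n = y ^ n)
    (hl : x.leadingCoeff = y.leadingCoeff) : x = y := by
  by_cases hx : x = 0
  · subst hx
    rw [zero_pow hn] at h
    exact (pow_eq_zero_iff hn).1 h.symm |>.symm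
  · have hc : x.leadingCoeff ≠ 0 := HahnSeries.leadingCoeff_ne_zero.2 hx
    have hC : (HahnSeries.C x.leadingCoeff⁻¹ : LaurentSeries Kbar) ≠ 0 := by
      rw [HahnSeries.C_apply]
      exact HahnSeries.single_ne_zero (inv_ne_zero hc)
    have hlC : (HahnSeries.C x.leadingCoeff⁻¹ : LaurentSeries Kbar).leadingCoeff =
        x.leadingCoeff⁻¹ := by
      rw [HahnSeries.C_apply, HahnSeries.leadingCoeff_of_single]
    apply mul_left_cancel₀ hC
    apply BAD.Bridge.normalized_root_unique n hn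
    · rw [mul_pow, mul_pow, h]
    · rw [HahnSeries.leadingCoeff_mul, hlC, inv_mul_cancel₀ hc]
    · rw [HahnSeries.leadingCoeff_mul, hlC, ← hl, inv_mul_cancel₀ hc]

/-- the leading coefficient, as a monoid homomorphism on `FN L` -/
private def rat_lc (L : ℕ) : FN L →* Kbar where
  toFun x := (x : LaurentSeries Kbar).leadingCoeff
  map_one' := by
    rw [OneMemClass.coe_one]
    exact HahnSeries.leadingCoeff_one
  map_mul' x y := by
    rw [MulMemClass.coe_mul, HahnSeries.leadingCoeff_mul]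

private theorem rat_lc_apply (L : ℕ) (x : FN L) :
    rat_lc L x = (x : LaurentSeries Kbar).leadingCoeff := rfl

theorem bracket {p L ℓ m a : ℕ} [NeZero ℓ] (hp : p ≠ 0) (hℓ : Odd ℓ) (H : E.HeckeOp L ℓ)
    (τ : S44.GQ) (hact : ActsBy p τ m) {U g h : FN L} (hU0 : U ≠ 0)
    (hlU : (U : LaurentSeries Kbar).leadingCoeff = 1)
    (hlh : (h : LaurentSeries Kbar).leadingCoeff = 1)
    (hTU : H.T U = U ^ a * g ^ p) (hU : E.galF L τ U = U ^ m * h ^ p) :
    E.galF L τ g * h ^ a = g ^ m * H.T h := by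
  have hpow : (E.galF L τ g * h ^ a) ^ p = (g ^ m * H.T h) ^ p := by
    have h1 : E.galF L τ (H.T U) = H.T (E.galF L τ U) := H.galF_T τ U
    rw [hTU, hU] at h1
    simp only [map_mul, map_pow] at h1
    rw [hTU, hU] at h1
    have hUne : U ^ (m * a) ≠ 0 := pow_ne_zero _ hU0
    apply mul_left_cancel₀ hUne
    calc U ^ (m * a) * (E.galF L τ g * h ^ a) ^ p
        = (U ^ m * h ^ p) ^ a * E.galF L τ g ^ p := by ring
      _ = (U ^ a * g ^ p) ^ m * H.T h ^ p := h1
      _ = U ^ (m * a) * (g ^ m * H.T h) ^ p := by ring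
  have hl : ((E.galF L τ g * h ^ a : FN L) : LaurentSeries Kbar).leadingCoeff =
      ((g ^ m * H.T h : FN L) : LaurentSeries Kbar).leadingCoeff := by
    rw [← rat_lc_apply, ← rat_lc_apply, map_mul, map_mul, map_pow, map_pow]
    have e1 : rat_lc L h = 1 := hlh
    have e2 : rat_lc L (H.T h) = 1 := by
      rw [rat_lc_apply, leadingCoeff_T hℓ H h, hlh, one_pow]
    have e3 : rat_lc L (E.galF L τ g) = τ (rat_lc L g) := by
      rw [rat_lc_apply, rat_lc_apply, E.coe_galF]
      exact leadingCoeff_gS τ _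
    have e4 : rat_lc L g ^ p = 1 := by
      have h2 := congrArg (rat_lc L) hTU
      rw [map_mul, map_pow, map_pow] at h2
      have e5 : rat_lc L U = 1 := hlU
      have e6 : rat_lc L (H.T U) = 1 := by
        rw [rat_lc_apply, leadingCoeff_T hℓ H U, hlU, one_pow]
      rw [e5, e6, one_pow, one_mul] at h2
      exact h2.symm
    rw [e1, e2, e3, hact _ e4, one_pow, mul_one]
  apply Subtype.ext
  apply eq_of_pow_eq hp _ hl
  rw [← SubmonoidClass.coe_pow, ← SubmonoidClass.coe_pow, hpow]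

end Fermat.Agent.S44.X.Cover

end
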