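/-
S44, block X, COVER, node RAT (owner helper43).  LEAF RAT-1: calculus of `Deep G p n f` (`f ≡ 1 mod p ^ n` in the valuation
ring `G`).  Pure valuation ring algebra: everything goes through `deep_iff`.

Hints.  `(p : F) ∈ G` is `natCast_mem G p`.  `deep_iff`: `z = (f - 1) / p ^ n`, `field_simp`.
`mul`: `(1 + P x) (1 + P y) = 1 + P (x + y + P x y)`.  `inv`: `f = 1 + P z` with `P z` a nonunit of `G` (`1 ≤ n`), so
`G.valuation f = 1` (`Valuation.map_one_add_of_lt`, `ValuationSubring.valuation_lt_one_iff` / `mem_nonunits_iff`), so `f⁻¹ ∈ G`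
(`ValuationSubring.valuation_le_one_iff`, `map_inv₀`), and `f⁻¹ = 1 + P (- z f⁻¹)`.
-/
import Fermat.Agent.S44.X.Cover.Nodes

set_option autoImplicit false

noncomputable section

namespace Fermat.Agent.S44.X.Cover

variable {F : Type*} [Field F] {G : ValuationSubring F} {p : ℕ}

theorem deep_iff (hp0 : (p : F) ≠ 0) {n : ℕ} {f : F} :
    Deep G p n f ↔ ∃ z ∈ G, f = 1 + (p : F) ^ n * z := by
  have hP : (p : F) ^ n ≠ 0 := pow_ne_zero n hp0
  constructor
  · intro h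
    refine ⟨_, h, ?_⟩
    rw [mul_div_cancel₀ _ hP]
    ring
  · rintro ⟨z, hz, rfl⟩
    unfold Deep
    rwa [add_sub_cancel_left, mul_div_cancel_left₀ _ hP]

theorem deep_one (n : ℕ) : Deep G p n (1 : F) := by
  unfold Deep
  rw [sub_self, zero_div]
  exact zero_mem G

theorem Deep.mem (hp0 : (p : F) ≠ 0) {n : ℕ} {f : F} (hf : Deep G p n f) : f ∈ G := by
  obtain ⟨z, hz, rfl⟩ := (deep_iff hp0).1 hf
  exact add_mem (one_mem G) (mul_mem (pow_mem (natCast_mem G p) n) hz)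

theorem Deep.mul (hp0 : (p : F) ≠ 0) {n : ℕ} {f g : F} (hf : Deep G p n f) (hg : Deep G p n g) :
    Deep G p n (f * g) := by
  obtain ⟨x, hx, rfl⟩ := (deep_iff hp0).1 hf
  obtain ⟨y, hy, rfl⟩ := (deep_iff hp0).1 hg
  refine (deep_iff hp0).2 ⟨x + y + (p : F) ^ n * (x * y), ?_, by ring⟩
  exact add_mem (add_mem hx hy) (mul_mem (pow_mem (natCast_mem G p) n) (mul_mem hx hy))

theorem Deep.pow (hp0 : (p : F) ≠ 0) {n : ℕ} {f : F} (hf : Deep G p n f) (k : ℕ) :
    Deep G p n (f ^ k) := by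
  induction k with
  | zero => rw [pow_zero]; exact deep_one n
  | succ k ih => rw [pow_succ]; exact ih.mul hp0 hf

theorem Deep.mono (hp0 : (p : F) ≠ 0) {m n : ℕ} (h : m ≤ n) {f : F} (hf : Deep G p n f) :
    Deep G p m f := by
  obtain ⟨z, hz, rfl⟩ := (deep_iff hp0).1 hf
  obtain ⟨k, rfl⟩ := Nat.exists_eq_add_of_le h
  exact (deep_iff hp0).2 ⟨(p : F) ^ k * z, mul_mem (pow_mem (natCast_mem G p) k) hz, by ring⟩

theorem Deep.valuation_eq_one (hp0 : (p : F) ≠ 0) (hpG : (p : F) ∈ G.nonunits) {n : ℕ} (hn : 1 ≤ n)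
    {f : F} (hf : Deep G p n f) : G.valuation f = 1 := by
  obtain ⟨z, hz, rfl⟩ := (deep_iff hp0).1 hf
  apply Valuation.map_one_add_of_lt
  have h1 : G.valuation (p : F) < 1 := (ValuationSubring.mem_nonunits_iff G).1 hpG
  have h2 : G.valuation z ≤ 1 := (G.valuation_le_one_iff z).2 hz
  have h3 : G.valuation (p : F) ^ n < 1 := pow_lt_one₀ zero_le h1 (by omega)
  rw [map_mul, map_pow]
  exact mul_lt_one_of_lt_of_le h3 h2

theorem Deep.ne_zero (hp0 : (p : F) ≠ 0) (hpG : (p : F) ∈ G.nonunits) {n : ℕ} (hn : 1 ≤ n)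
    {f : F} (hf : Deep G p n f) : f ≠ 0 := by
  rintro rfl
  have := hf.valuation_eq_one hp0 hpG hn
  rw [map_zero] at this
  exact zero_ne_one this

theorem Deep.inv (hp0 : (p : F) ≠ 0) (hpG : (p : F) ∈ G.nonunits) {n : ℕ} (hn : 1 ≤ n)
    {f : F} (hf : Deep G p n f) : Deep G p n f⁻¹ := by
  have hv := hf.valuation_eq_one hp0 hpG hn
  have hf0 := hf.ne_zero hp0 hpG hn
  have hinv : f⁻¹ ∈ G := by
    rw [← G.valuation_le_one_iff, map_inv₀, hv, inv_one]
  obtain ⟨z, hz, hfz⟩ := (deep_iff hp0).1 hf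
  refine (deep_iff hp0).2 ⟨-(z * f⁻¹), neg_mem (mul_mem hz hinv), ?_⟩
  have h1 : f * f⁻¹ = 1 := mul_inv_cancel₀ hf0
  have h2 : (1 + (p : F) ^ n * z) * f⁻¹ = 1 := by rw [← hfz, h1]
  linear_combination h2

theorem Deep.div (hp0 : (p : F) ≠ 0) (hpG : (p : F) ∈ G.nonunits) {n : ℕ} (hn : 1 ≤ n)
    {f g : F} (hf : Deep G p n f) (hg : Deep G p n g) : Deep G p n (f / g) := by
  rw [div_eq_mul_inv]
  exact hf.mul hp0 (hg.inv hp0 hpG hn)

/-- a ring endomorphism which preserves `G` preserves `Deep` -/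
theorem Deep.map (τ : F →+* F) (hτ : ∀ f ∈ G, τ f ∈ G) {n : ℕ} {f : F} (hf : Deep G p n f) :
    Deep G p n (τ f) := by
  have := hτ _ hf
  rwa [map_div₀, map_sub, map_one, map_pow, map_natCast] at this

end Fermat.Agent.S44.X.Cover

end
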