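/-
S44, block X, COVER, node RAT (owner helper43).  LEAF RAT-2: the ROOT LEMMA.  `v = G.valuation`, `0 < v p < 1`, `p` odd.

`eq_one_of_deep` : if `ξ ≠ 1` then `v (ξ - 1) ^ (p - 1) = v p` (`S56.Flat.Ram.val_zeta_sub_one`, Mathlib only file), but
`v (ξ - 1) ≤ v p` (Deep 1), so `v p ≤ v p ^ (p - 1) ≤ v p ^ 2 < v p`.

`exists_deep_div_pow` : `∏_{i < p} (x - ζ ^ i) = x ^ p - 1` (`IsPrimitiveRoot.pow_sub_pow_eq_prod_sub_mul` /
`X_pow_sub_one_eq_prod`, `IsPrimitiveRoot.nthRoots_one_eq_biUnion_primitiveRoots`, or `Polynomial.nthRootsFinset` =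
image of `i ↦ ζ ^ i` on `range p`), hence `∏ v (x - ζ ^ i) ≤ v p ^ 2`.  Put `π = v (ζ - 1)`, `π ^ (p - 1) = v p`, and
`v (ζ ^ i - ζ ^ j) = π` for `i ≠ j < p`.  Choose `i₀` with `μ = v (x - ζ ^ i₀)` MINIMAL (closest root).
If `μ < π` then `v (x - ζ ^ i) = π` for `i ≠ i₀` (`Valuation.map_add_eq_of_lt_left`), so `μ * v p = μ π ^ (p - 1) ≤ v p ^ 2`, `μ ≤ v p`:
then `x / ζ ^ i₀ - 1 = (x - ζ ^ i₀) / ζ ^ i₀` and `v ζ = 1`.  If `π ≤ μ` then all factors are `≥ π`: `π ^ p ≤ v p ^ 2 = π ^ (2 p - 2)`, impossible because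
`π < 1` and `p < 2 p - 2` (`p ≥ 3`).
-/
import Fermat.Agent.S44.X.Cover.Rat.Deep
import Fermat.Agent.S56.Flat.Ram.Zeta

set_option autoImplicit false

noncomputable section

namespace Fermat.Agent.S44.X.Cover

variable {F : Type*} [Field F] {G : ValuationSubring F} {p : ℕ}

private theorem rat_deep_iff_val (hp0 : (p : F) ≠ 0) {n : ℕ} {f : F} :
    Deep G p n f ↔ G.valuation (f - 1) ≤ G.valuation (p : F) ^ n := by
  have hpos : 0 < G.valuation (p : F) ^ n :=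
    pow_pos (zero_lt_iff.2 ((G.valuation.ne_zero_iff).2 hp0)) n
  unfold Deep
  rw [← G.valuation_le_one_iff, map_div₀, map_pow, div_le_one₀ hpos]

private theorem rat_val_p_pos (hp0 : (p : F) ≠ 0) : 0 < G.valuation (p : F) :=
  zero_lt_iff.2 ((G.valuation.ne_zero_iff).2 hp0)

private theorem rat_val_p_lt_one (hpG : (p : F) ∈ G.nonunits) : G.valuation (p : F) < 1 :=
  (ValuationSubring.mem_nonunits_iff G).1 hpG

private theorem rat_three_le (hp : p.Prime) (hp2 : p ≠ 2) : 3 ≤ p := by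
  have := hp.two_le
  omega

/-- a `p`-th root of unity which is `≡ 1 mod p` is `1` (`p` odd) -/
theorem eq_one_of_deep (hp : p.Prime) (hp2 : p ≠ 2) (hp0 : (p : F) ≠ 0)
    (hpG : (p : F) ∈ G.nonunits) {ξ : F} (h1 : ξ ^ p = 1) (hd : Deep G p 1 ξ) : ξ = 1 := by
  by_contra hξ
  have h3 := rat_three_le hp hp2
  have hv := S56.Flat.Ram.val_zeta_sub_one G.valuation p hp ξ h1 hξ
  have hle : G.valuation (ξ - 1) ≤ G.valuation (p : F) := by
    simpa using (rat_deep_iff_val hp0).1 hd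
  have h4 : G.valuation (p : F) ≤ G.valuation (p : F) ^ (p - 1) := by
    calc G.valuation (p : F) = G.valuation (ξ - 1) ^ (p - 1) := hv.symm
      _ ≤ _ := pow_le_pow_left₀ zero_le hle _
  exact absurd h4 (not_le.2 (pow_lt_self_of_lt_one₀ (rat_val_p_pos hp0) (rat_val_p_lt_one hpG)
    (by omega)))

/-- **Root lemma**: if `x ^ p ≡ 1 mod p ^ 2` then `x ≡ ζ ^ i mod p` for some `i`. -/
theorem exists_deep_div_pow (hp : p.Prime) (hp2 : p ≠ 2) (hp0 : (p : F) ≠ 0)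
    (hpG : (p : F) ∈ G.nonunits) {ζ : F} (hζ : IsPrimitiveRoot ζ p) {x : F}
    (hx : Deep G p 2 (x ^ p)) : ∃ i : ℕ, Deep G p 1 (x / ζ ^ i) := by
  classical
  have h3 := rat_three_le hp hp2
  have hvp0 := rat_val_p_pos (G := G) hp0
  have hvp1 := rat_val_p_lt_one hpG
  have hζ0 : ζ ≠ 0 := hζ.ne_zero hp.ne_zero
  have hζ1 : ζ ≠ 1 := hζ.ne_one hp.one_lt
  have hvζ : G.valuation ζ = 1 := by
    have h : G.valuation ζ ^ p = 1 := by rw [← map_pow, hζ.pow_eq_one, map_one]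
    exact (pow_eq_one_iff.1 h).resolve_right hp.ne_zero
  have hπ : G.valuation (ζ - 1) ^ (p - 1) = G.valuation (p : F) :=
    S56.Flat.Ram.val_zeta_sub_one G.valuation p hp ζ hζ.pow_eq_one hζ1
  have hπ0 : 0 < G.valuation (ζ - 1) :=
    zero_lt_iff.2 ((G.valuation.ne_zero_iff).2 (sub_ne_zero.2 hζ1))
  have hπ1 : G.valuation (ζ - 1) < 1 := by
    by_contra hcon
    have : 1 ≤ G.valuation (ζ - 1) ^ (p - 1) := one_le_pow₀ (not_lt.1 hcon)
    rw [hπ] at this
    exact absurd this (not_le.2 hvp1)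
  -- the differences of the roots
  have hdiff : ∀ i ∈ Finset.range p, ∀ j ∈ Finset.range p, i ≠ j →
      G.valuation (ζ ^ i - ζ ^ j) = G.valuation (ζ - 1) := by
    intro i hi j hj hij
    rw [Finset.mem_range] at hi hj
    have hj0 : ζ ^ j ≠ 0 := pow_ne_zero _ hζ0
    have hξp : (ζ ^ i / ζ ^ j) ^ p = 1 := by
      rw [div_pow, ← pow_mul, ← pow_mul, mul_comm i, mul_comm j, pow_mul, pow_mul, hζ.pow_eq_one,
        one_pow, one_pow, div_one]
    have hξ1 : ζ ^ i / ζ ^ j ≠ 1 := by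
      intro h
      rw [div_eq_one_iff_eq hj0] at h
      exact hij (hζ.pow_inj hi hj h)
    have h1 := S56.Flat.Ram.val_zeta_sub_one G.valuation p hp _ hξp hξ1
    rw [← hπ, pow_left_inj₀ zero_le zero_le (by omega)] at h1
    have h2 : ζ ^ i - ζ ^ j = ζ ^ j * (ζ ^ i / ζ ^ j - 1) := by
      field_simp
    rw [h2, map_mul, map_pow, hvζ, one_pow, one_mul, h1]
  -- the factorisation
  have hprod : x ^ p - 1 = ∏ i ∈ Finset.range p, (x - ζ ^ i) := by
    have h := congrArg (Polynomial.eval x)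
      (X_pow_sub_C_eq_prod hζ (α := 1) (a := 1) hp.pos (one_pow p))
    simpa [Polynomial.eval_prod] using h
  have hle : ∏ i ∈ Finset.range p, G.valuation (x - ζ ^ i) ≤ G.valuation (p : F) ^ 2 := by
    rw [← map_prod, ← hprod]
    exact (rat_deep_iff_val hp0).1 hx
  obtain ⟨i₀, hi₀, hmin⟩ := Finset.exists_min_image (Finset.range p)
    (fun i => G.valuation (x - ζ ^ i)) ⟨0, Finset.mem_range.2 hp.pos⟩
  refine ⟨i₀, (rat_deep_iff_val hp0).2 ?_⟩
  have hi0 : ζ ^ i₀ ≠ 0 := pow_ne_zero _ hζ0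
  have he : x / ζ ^ i₀ - 1 = (x - ζ ^ i₀) / ζ ^ i₀ := by
    field_simp
  rw [he, map_div₀, map_pow, hvζ, one_pow, div_one, pow_one]
  rcases lt_or_ge (G.valuation (x - ζ ^ i₀)) (G.valuation (ζ - 1)) with hlt | hge
  · have hother : ∀ i ∈ (Finset.range p).erase i₀,
        G.valuation (x - ζ ^ i) = G.valuation (ζ - 1) := by
      intro i hi
      rw [Finset.mem_erase] at hi
      have h1 := hdiff i₀ hi₀ i hi.2 (Ne.symm hi.1)
      have h2 : x - ζ ^ i = (x - ζ ^ i₀) + (ζ ^ i₀ - ζ ^ i) := by ring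
      rw [h2, Valuation.map_add_eq_of_lt_right _ (by rw [h1]; exact hlt), h1]
    rw [← Finset.mul_prod_erase _ _ hi₀, Finset.prod_congr rfl hother, Finset.prod_const,
      Finset.card_erase_of_mem hi₀, Finset.card_range, hπ, pow_two] at hle
    exact le_of_mul_le_mul_right hle hvp0
  · exfalso
    have h1 : G.valuation (ζ - 1) ^ p ≤ ∏ i ∈ Finset.range p, G.valuation (x - ζ ^ i) := by
      calc G.valuation (ζ - 1) ^ p = ∏ _i ∈ Finset.range p, G.valuation (ζ - 1) := by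
            rw [Finset.prod_const, Finset.card_range]
        _ ≤ _ := Finset.prod_le_prod' fun i hi => hge.trans (hmin i hi)
    have h2 : G.valuation (ζ - 1) ^ p ≤ G.valuation (ζ - 1) ^ ((p - 1) * 2) := by
      rw [pow_mul, hπ]
      exact h1.trans hle
    exact absurd h2 (not_le.2 (pow_lt_pow_right_of_lt_one₀ hπ0 hπ1 (by omega)))

end Fermat.Agent.S44.X.Cover

end
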