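/-
S44, block X, COVER, node RAT (owner helper43).  LEAF RAT-3: the abstract Hecke trick (pure field algebra + `Deep` calculus).

PROOF.  All of `U t g h r`, `T _`, `τ _` are `≠ 0` (`Deep.ne_zero` for `U t ^ p`; `T` is a monoid hom of a field: `T f * T f⁻¹ = 1`; `τ` injective).
(1) `τ (U t^p) = r^p (U t^p)^m` (from `hU`, `hh`), so `r ^ p = τ s / s ^ m` is Deep 2 (`s = U t ^ p`; `Deep.map`, `Deep.pow`, `Deep.div`).
    Root lemma: `r₁ := r / ζ ^ c` is Deep 1.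
(2) `x := g * T t / t ^ a`; `x ^ p = T s / s ^ a` (from `hTU`) is Deep 2; root lemma: `x / ζ ^ i` Deep 1.  Apply `τ` (`τ ζ = ζ ^ m`) and `(·) ^ m`:
    `τ x / ζ ^ (i m)` and `x ^ m / ζ ^ (i m)` are Deep 1, so `τ x / x ^ m` is Deep 1.
(3) `τ x / x ^ m = T r / r ^ a`: `τ x = τ g * T (τ t) / (τ t) ^ a`, `τ t = r t ^ m / h`, and `hB`.
(4) `T r / r ^ a = (ζ ^ (c (ℓ+1)) / ζ ^ (c a)) * (T r₁ / r₁ ^ a)`, `T r₁ / r₁ ^ a` Deep 1.  So `ξ := ζ ^ (c (ℓ+1)) / ζ ^ (c a)` is Deep 1, `ξ ^ p = 1`: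
    `ξ = 1` (`eq_one_of_deep`), `ζ ^ (c (ℓ+1)) = ζ ^ (c a)`, `c (ℓ + 1) ≡ c a mod p` (`IsPrimitiveRoot.pow_eq_pow_iff_modEq`), so in `ZMod p`:
    `c * (ℓ + 1 - a) = 0`, `c = 0`, `p ∣ c`, `ζ ^ c = 1`, `r = r₁`.
-/
import Fermat.Agent.S44.X.Cover.Rat.Root

set_option autoImplicit false

noncomputable section

namespace Fermat.Agent.S44.X.Cover

theorem rat_core {F : Type*} [Field F] (G : ValuationSubring F) {p ℓ m a : ℕ} (hp : p.Prime)
    (hp2 : p ≠ 2) (hp0 : (p : F) ≠ 0) (hpG : (p : F) ∈ G.nonunits) {ζ : F}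
    (hζ : IsPrimitiveRoot ζ p) (τ : F →+* F) (hτG : ∀ f ∈ G, τ f ∈ G) (hτζ : τ ζ = ζ ^ m)
    (T : F →* F) (hT : ∀ (n : ℕ) (f : F), Deep G p n f → Deep G p n (T f))
    (hTζ : T ζ = ζ ^ (ℓ + 1)) (hτT : ∀ f, τ (T f) = T (τ f))
    (ha : (a : ZMod p) ≠ (ℓ : ZMod p) + 1) {U t g r h : F} (hTU : T U = U ^ a * g ^ p)
    (hs : Deep G p 2 (U * t ^ p)) (hh : τ t * h = r * t ^ m) (hU : τ U = U ^ m * h ^ p)
    (hB : τ g * h ^ a = g ^ m * T h) : Deep G p 1 r := by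
  have hTne : ∀ f : F, f ≠ 0 → T f ≠ 0 := by
    intro f hf h0
    have h1 : T f * T f⁻¹ = 1 := by rw [← map_mul, mul_inv_cancel₀ hf, map_one]
    rw [h0, zero_mul] at h1
    exact zero_ne_one h1
  have hτne : ∀ f : F, f ≠ 0 → τ f ≠ 0 := fun f hf => (map_ne_zero τ).mpr hf
  -- non vanishing
  have hs0 : U * t ^ p ≠ 0 := hs.ne_zero hp0 hpG (by norm_num)
  have hU0 : U ≠ 0 := left_ne_zero_of_mul hs0
  have ht0 : t ≠ 0 := fun h0 => right_ne_zero_of_mul hs0 (by rw [h0, zero_pow hp.ne_zero])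
  have hh0 : h ≠ 0 := by
    intro h0
    apply hτne U hU0
    rw [hU, h0, zero_pow hp.ne_zero, mul_zero]
  have hr0 : r ≠ 0 := by
    intro h0
    apply mul_ne_zero (hτne t ht0) hh0
    rw [hh, h0, zero_mul]
  have hg0 : g ≠ 0 := by
    intro h0
    apply hTne U hU0
    rw [hTU, h0, zero_pow hp.ne_zero, mul_zero]
  have hζ0 : ζ ≠ 0 := hζ.ne_zero hp.ne_zero
  -- (1)
  have h1 : r ^ p * (U * t ^ p) ^ m = τ (U * t ^ p) := by
    rw [map_mul, map_pow, hU]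
    calc r ^ p * (U * t ^ p) ^ m = U ^ m * (r * t ^ m) ^ p := by ring
      _ = U ^ m * (τ t * h) ^ p := by rw [hh]
      _ = U ^ m * h ^ p * τ t ^ p := by ring
  have hrp : Deep G p 2 (r ^ p) := by
    rw [eq_div_of_mul_eq (pow_ne_zero m hs0) h1]
    exact (hs.map τ hτG).div hp0 hpG (by norm_num) (hs.pow hp0 m)
  obtain ⟨c, hc⟩ := exists_deep_div_pow hp hp2 hp0 hpG hζ hrp
  -- (2)
  obtain ⟨x, hx⟩ : ∃ x : F, x * t ^ a = g * T t :=
    ⟨g * T t / t ^ a, div_mul_cancel₀ _ (pow_ne_zero a ht0)⟩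
  have hx0 : x ≠ 0 := by
    intro h0
    apply mul_ne_zero hg0 (hTne t ht0)
    rw [← hx, h0, zero_mul]
  have h2 : x ^ p * (U * t ^ p) ^ a = T (U * t ^ p) := by
    rw [map_mul, map_pow, hTU]
    calc x ^ p * (U * t ^ p) ^ a = (x * t ^ a) ^ p * U ^ a := by ring
      _ = (g * T t) ^ p * U ^ a := by rw [hx]
      _ = U ^ a * g ^ p * T t ^ p := by ring
  have hxp : Deep G p 2 (x ^ p) := by
    rw [eq_div_of_mul_eq (pow_ne_zero a hs0) h2]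
    exact (hT 2 _ hs).div hp0 hpG (by norm_num) (hs.pow hp0 a)
  obtain ⟨i, hi⟩ := exists_deep_div_pow hp hp2 hp0 hpG hζ hxp
  have hA : Deep G p 1 (τ x / x ^ m) := by
    have e1 := hi.map τ hτG
    have e2 := hi.pow hp0 m
    rw [map_div₀, map_pow, hτζ, ← pow_mul, mul_comm m i, pow_mul] at e1
    rw [div_pow] at e2
    have e3 := e1.div hp0 hpG le_rfl e2
    rwa [div_div_div_cancel_right₀ (pow_ne_zero m (pow_ne_zero i hζ0))] at e3
  -- (3)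
  have hτx : τ x * τ t ^ a = τ g * T (τ t) := by
    have := congrArg τ hx
    rwa [map_mul, map_pow, map_mul, hτT] at this
  have hTh : T (τ t) * T h = T r * T t ^ m := by
    rw [← map_mul, hh, map_mul, map_pow]
  have h3 : τ x * r ^ a = T r * x ^ m := by
    have hne : t ^ (m * a) * T h ≠ 0 := mul_ne_zero (pow_ne_zero _ ht0) (hTne h hh0)
    apply mul_right_cancel₀ hne
    calc τ x * r ^ a * (t ^ (m * a) * T h) = τ x * (r * t ^ m) ^ a * T h := by ring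
      _ = τ x * (τ t * h) ^ a * T h := by rw [hh]
      _ = (τ x * τ t ^ a) * h ^ a * T h := by ring
      _ = τ g * T (τ t) * h ^ a * T h := by rw [hτx]
      _ = (τ g * h ^ a) * (T (τ t) * T h) := by ring
      _ = g ^ m * T h * (T r * T t ^ m) := by rw [hB, hTh]
      _ = T r * (g * T t) ^ m * T h := by ring
      _ = T r * (x * t ^ a) ^ m * T h := by rw [hx]
      _ = T r * x ^ m * (t ^ (m * a) * T h) := by ring
  -- (4)
  have hr1 : r = r / ζ ^ c * ζ ^ c := (div_mul_cancel₀ _ (pow_ne_zero c hζ0)).symm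
  have hr10 : r / ζ ^ c ≠ 0 := div_ne_zero hr0 (pow_ne_zero c hζ0)
  have hBd : Deep G p 1 (T (r / ζ ^ c) / (r / ζ ^ c) ^ a) :=
    (hT 1 _ hc).div hp0 hpG le_rfl (hc.pow hp0 a)
  have hBne : T (r / ζ ^ c) / (r / ζ ^ c) ^ a ≠ 0 :=
    div_ne_zero (hTne _ hr10) (pow_ne_zero a hr10)
  have h4 : ζ ^ ((ℓ + 1) * c) / ζ ^ (c * a) * (T (r / ζ ^ c) / (r / ζ ^ c) ^ a) =
      τ x / x ^ m := by
    have e1 : τ x / x ^ m = T r / r ^ a :=
      (div_eq_div_iff (pow_ne_zero m hx0) (pow_ne_zero a hr0)).mpr h3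
    have e2 : T r = T (r / ζ ^ c) * ζ ^ ((ℓ + 1) * c) := by
      conv_lhs => rw [hr1]
      rw [map_mul, map_pow, hTζ, ← pow_mul]
    have e3 : r ^ a = (r / ζ ^ c) ^ a * ζ ^ (c * a) := by
      conv_lhs => rw [hr1]
      rw [mul_pow, ← pow_mul]
    rw [e1, e2, e3, mul_div_mul_comm, mul_comm]
  have hξ : Deep G p 1 (ζ ^ ((ℓ + 1) * c) / ζ ^ (c * a)) := by
    rw [eq_div_of_mul_eq hBne h4]
    exact hA.div hp0 hpG le_rfl hBd
  have hξp : (ζ ^ ((ℓ + 1) * c) / ζ ^ (c * a)) ^ p = 1 := by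
    have e : ∀ k : ℕ, (ζ ^ k) ^ p = 1 := fun k => by
      rw [← pow_mul, mul_comm, pow_mul, hζ.pow_eq_one, one_pow]
    rw [div_pow, e, e, div_one]
  have hξ1 := eq_one_of_deep hp hp2 hp0 hpG hξp hξ
  rw [div_eq_one_iff_eq (pow_ne_zero _ hζ0)] at hξ1
  have hfin : IsOfFinOrder ζ := isOfFinOrder_iff_pow_eq_one.mpr ⟨p, hp.pos, hζ.pow_eq_one⟩
  rw [hfin.pow_eq_pow_iff_modEq, ← hζ.eq_orderOf, ← ZMod.natCast_eq_natCast_iff] at hξ1
  have : Fact p.Prime := ⟨hp⟩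
  have h5 : (c : ZMod p) * ((ℓ : ZMod p) + 1 - (a : ZMod p)) = 0 := by
    push_cast at hξ1
    linear_combination hξ1
  have h6 : (c : ZMod p) = 0 :=
    (mul_eq_zero.mp h5).resolve_right (sub_ne_zero.mpr (Ne.symm ha))
  have h7 : ζ ^ c = 1 := (hζ.pow_eq_one_iff_dvd c).mpr ((ZMod.natCast_eq_zero_iff c p).mp h6)
  rwa [h7, div_one] at hc

end Fermat.Agent.S44.X.Cover

end
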