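/-
S44, block X, COVER, node RAT (owner helper43).  LEAF RAT-6: `nodeRat : NodeRat` (assembly).

PROOF.  `intro A I p L ℓ _ _ hp hp2 hA hℓ hℓ2 U W R G hG H hT a g hTU ha t ht τ hτ m hact r hr`.
* `F := FN L`; `(p : FN L) = algebraMap Kbar (FN L) p` (`map_natCast`), `≠ 0` (char 0), in `G.nonunits`: by `hG.const`, `p ∈ A` and `p⁻¹ ∉ A`
  (`hA : A.LiesOverPrime p` says `(p : Kbar) ∈ A.nonunits`); use `ValuationSubring.mem_nonunits_iff` / `valuation_lt_one_iff` and
  `G.valuation (algebraMap c) ≤ 1 ↔ c ∈ A` for `c = p` and `c = p⁻¹`.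
* `ζ₀ : Kbar` primitive `p`-th root (`IsAlgClosed` / `S24.B.zetaK p`), `ζ := algebraMap Kbar (FN L) ζ₀` (`IsPrimitiveRoot.map_of_injective`).
* `τ' := (E.galF L τ : FN L →+* FN L)`, preserves `G` (`hG.gal`), `τ' ζ = ζ ^ m` (`E.galF_algebraMap`, `hact`), commutes with `H.T` (`E.HeckeOp.galF_T`),
  `H.T ζ = ζ ^ (ℓ+1)` (`E.HeckeOp.T_algebraMap`).
* `U ≠ 0`, `t ≠ 0`, `W ≠ 0`.  `h := r * t ^ m / τ' t`.  Series identity `(h : series) * W ^ m = gS τ W` from `hr` (`map_mul`, cancel `gS τ t ≠ 0`).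
  Hence `lc h = 1` (`leadingCoeff_gS`, `R.nrm`, `HahnSeries.leadingCoeff_mul`, `BAD.Bridge.Root_leadingCoeff_pow`) and `τ' U = U ^ m * h ^ p` (`p`-th power of the identity, `R.pow`, `Subtype.ext`).
* `lc U = 1` from `R.pow`, `R.nrm`.  `bracket` gives `hB`; `rat_core` concludes.
-/
import Fermat.Agent.S44.X.Cover.Rat.Core
import Fermat.Agent.S44.X.Cover.Rat.Bracket

set_option autoImplicit false

noncomputable section

namespace Fermat.Agent.S44.X.Cover

open ModularCurve AlgebraicCurve Fermat.Agent.S24 Fermat.Agent.S24.B Fermat.Agent.GAL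

private theorem rat_natCast_mem_nonunits {A : ValuationSubring Kbar} {I : Subgroup S44.GQ} {p L : ℕ}
    (hp : p.Prime) (hA : A.LiesOverPrime p) {G : ValuationSubring (FN L)} (hG : GHyp A I L G) :
    (p : FN L) ∈ G.nonunits := by
  have hp0 : (p : Kbar) ≠ 0 := by exact_mod_cast hp.ne_zero
  have hA' : A.valuation (p : Kbar) < 1 := (ValuationSubring.mem_nonunits_iff A).1 hA
  rw [ValuationSubring.mem_nonunits_iff]
  by_contra hcon
  have h1 : (1 : _) ≤ G.valuation (p : FN L) := not_lt.1 hcon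
  have h2 : G.valuation ((p : FN L)⁻¹) ≤ 1 := by
    rw [map_inv₀]
    exact inv_le_one_of_one_le₀ h1
  rw [ValuationSubring.valuation_le_one_iff] at h2
  have h3 : ((p : FN L))⁻¹ = algebraMap Kbar (FN L) ((p : Kbar)⁻¹) := by
    rw [map_inv₀, map_natCast]
  rw [h3, hG.const] at h2
  have h4 : A.valuation ((p : Kbar)⁻¹) ≤ 1 := (A.valuation_le_one_iff _).2 h2
  rw [map_inv₀] at h4
  have h5 : (1 : _) ≤ A.valuation (p : Kbar) := by
    have hv0 : A.valuation (p : Kbar) ≠ 0 := (Valuation.ne_zero_iff _).2 hp0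
    exact (inv_le_one₀ (zero_lt_iff.2 hv0)).1 h4
  exact absurd hA' (not_lt.2 h5)

theorem nodeRat : NodeRat := by
  intro A I p L ℓ _ _ hp hp2 hA hℓ hℓ2 U W R G hG H hT a g hTU ha t ht τ hτ m hact r hr
  have hp0 : (p : FN L) ≠ 0 := by exact_mod_cast hp.ne_zero
  have hpG : (p : FN L) ∈ G.nonunits := rat_natCast_mem_nonunits hp hA hG
  have : NeZero p := ⟨hp.ne_zero⟩
  -- the root of unity
  have hζ₀ : IsPrimitiveRoot ((zetaK p : Kbarˣ) : Kbar) p :=
    IsPrimitiveRoot.coe_units_iff.2 (isPrimitiveRoot_zetaK p)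
  set ζ₀ : Kbar := ((zetaK p : Kbarˣ) : Kbar) with hζ₀def
  have hζ : IsPrimitiveRoot (algebraMap Kbar (FN L) ζ₀) p :=
    hζ₀.map_of_injective (algebraMap Kbar (FN L)).injective
  -- non vanishing
  have hs0 : U * t ^ p ≠ 0 := Deep.ne_zero hp0 hpG (by norm_num) ht
  have hU0 : U ≠ 0 := left_ne_zero_of_mul hs0
  have ht0 : t ≠ 0 := fun h => right_ne_zero_of_mul hs0 (by rw [h, zero_pow hp.ne_zero])
  have hτt0 : E.galF L τ t ≠ 0 := (map_ne_zero_iff _ (E.galF L τ).injective).2 ht0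
  have hW0 : W ≠ 0 := by
    rintro rfl
    have := R.nrm
    simp at this
  -- `h`
  set h : FN L := r * t ^ m / E.galF L τ t with hh
  have hh1 : E.galF L τ t * h = r * t ^ m := by
    rw [hh]
    field_simp
  have hser : (h : LaurentSeries Kbar) * W ^ m = gS τ W := by
    have e1 : ((E.galF L τ t : FN L) : LaurentSeries Kbar) * (h : LaurentSeries Kbar) =
        (r : LaurentSeries Kbar) * (t : LaurentSeries Kbar) ^ m := by
      have := congrArg (fun z : FN L => (z : LaurentSeries Kbar)) hh1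
      simpa using this
    rw [E.coe_galF] at e1
    have e2 : gS τ (t : LaurentSeries Kbar) ≠ 0 := by
      have : ((E.galF L τ t : FN L) : LaurentSeries Kbar) ≠ 0 := fun h0 => hτt0 (Subtype.ext h0)
      rwa [E.coe_galF] at this
    rw [map_mul, mul_pow] at hr
    apply mul_right_cancel₀ e2
    rw [hr]
    calc (h : LaurentSeries Kbar) * W ^ m * gS τ (t : LaurentSeries Kbar)
        = (gS τ (t : LaurentSeries Kbar) * (h : LaurentSeries Kbar)) * W ^ m := by ring
      _ = _ := by rw [e1]; ring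
  have hlW : ∀ k : ℕ, (W ^ k).leadingCoeff = 1 := fun k => by
    rw [BAD.Bridge.Root_leadingCoeff_pow, R.nrm, one_pow]
  have hlh : (h : LaurentSeries Kbar).leadingCoeff = 1 := by
    have := congrArg HahnSeries.leadingCoeff hser
    rwa [HahnSeries.leadingCoeff_mul, hlW, mul_one, leadingCoeff_gS, R.nrm, map_one] at this
  have hlU : (U : LaurentSeries Kbar).leadingCoeff = 1 := by rw [← R.pow, hlW]
  have hU : E.galF L τ U = U ^ m * h ^ p := by
    apply Subtype.ext
    rw [E.coe_galF, ← R.pow, map_pow, ← hser]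
    show _ = (U : LaurentSeries Kbar) ^ m * (h : LaurentSeries Kbar) ^ p
    rw [← R.pow]
    ring
  have hB := bracket hp.ne_zero (hℓ.odd_of_ne_two hℓ2) H τ hact hU0 hlU hlh hTU hU
  refine rat_core G hp hp2 hp0 hpG hζ (E.galF L τ : FN L →+* FN L) (fun f hf => (hG.gal τ hτ f).2 hf)
    ?_ H.T hT ?_ (fun f => E.HeckeOp.galF_T H τ f) ha hTU ht hh1 hU hB
  · show E.galF L τ (algebraMap Kbar (FN L) ζ₀) = _
    rw [E.galF_algebraMap, hact ζ₀ hζ₀.pow_eq_one, map_pow]
  · rw [E.HeckeOp.T_algebraMap, map_pow]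

end Fermat.Agent.S44.X.Cover

end
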